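import Mathlib
import Fermat.Agent.S16x.Asm.Defs
import Fermat.Prelude.Thm_CongruenceSubgroup_one_mem_strictPeriods_Gamma0

/-!
# S16, leaf [EIS]: the Eisenstein series of weight 2 and level `Γ₀(p)` (helper21)

`E(z) = (p E₂(p z) - E₂(z)) / 24 ∈ M_2(Γ₀(p))` with `q`-expansion
`(p - 1) / 24 + ∑_{k ≥ 1} σ*(k) q ^ k`, where `σ*(k)` is the sum of the divisors of `k` which are
prime to `p`.  Main result: `h21_stEis p : Asm.StEis p`.
-/

set_option autoImplicit false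
set_option linter.style.haveILetI false
set_option linter.unusedSectionVars false

namespace Fermat.Agent.S16x.Eis

open UpperHalfPlane hiding I
open ModularForm EisensteinSeries CongruenceSubgroup Complex Real
open scoped MatrixGroups ModularForm Manifold ArithmeticFunction.sigma

noncomputable section

/-! ### The transformation law of `E₂`, pointwise -/

/-- The constant `1 / (2 ζ(2))` of the transformation law of `E₂`. -/
def h21_c0 : ℂ := 1 / (2 * riemannZeta 2)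

lemma h21_E2_smul (γ : SL(2, ℤ)) (z : ℍ) :
    E2 (γ • z) = (denom γ z) ^ 2 * (E2 z - h21_c0 * D2 γ z) := by
  have h := congrFun (E2_slash_action γ) z
  rw [SL_slash_apply] at h
  simp only [Pi.sub_apply, Pi.smul_apply, smul_eq_mul] at h
  have hd : denom γ z ≠ 0 := denom_ne_zero γ z
  rw [h21_c0, ← h, zpow_neg, zpow_two, ← pow_two]
  field_simp

/-- `D2 γ z` in terms of the entries. -/
lemma h21_D2_apply (γ : SL(2, ℤ)) (z : ℍ) :
    D2 γ z = 2 * π * I * (γ 1 0 : ℂ) / ((γ 1 0 : ℂ) * z + (γ 1 1 : ℂ)) := by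
  simp [D2, ModularGroup.denom_apply]

/-! ### The points `p z` and `(z + j) / p` -/

/-- The point `p z`. -/
def h21_mulP (p : ℕ) [NeZero p] (z : ℍ) : ℍ :=
  ⟨(p : ℂ) * z, by
    have hp : (0 : ℝ) < p := by exact_mod_cast Nat.pos_of_ne_zero (NeZero.ne p)
    simpa using mul_pos hp z.im_pos⟩

/-- The point `(z + j) / p`. -/
def h21_divP (p : ℕ) [NeZero p] (j : ℤ) (z : ℍ) : ℍ :=
  ⟨((z : ℂ) + j) / p, by
    have hp : (0 : ℝ) < p := by exact_mod_cast Nat.pos_of_ne_zero (NeZero.ne p)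
    have : ((z : ℂ) + j) / p = (((p : ℝ)⁻¹ : ℝ) : ℂ) * ((z : ℂ) + j) := by
      push_cast; field_simp
    rw [this, Complex.im_ofReal_mul]
    have h2 : ((z : ℂ) + j).im = z.im := by simp
    rw [h2]
    exact mul_pos (inv_pos.mpr hp) z.im_pos⟩

@[simp] lemma h21_coe_mulP (p : ℕ) [NeZero p] (z : ℍ) :
    ((h21_mulP p z : ℍ) : ℂ) = (p : ℂ) * z := rfl

@[simp] lemma h21_coe_divP (p : ℕ) [NeZero p] (j : ℤ) (z : ℍ) :
    ((h21_divP p j z : ℍ) : ℂ) = ((z : ℂ) + j) / p := rfl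

lemma h21_im_mulP (p : ℕ) [NeZero p] (z : ℍ) : (h21_mulP p z).im = p * z.im := by
  change ((p : ℂ) * z).im = _
  simp

lemma h21_im_divP (p : ℕ) [NeZero p] (j : ℤ) (z : ℍ) : (h21_divP p j z).im = z.im / p := by
  change (((z : ℂ) + j) / p).im = _
  have : ((z : ℂ) + j) / p = (((p : ℝ)⁻¹ : ℝ) : ℂ) * ((z : ℂ) + j) := by
    push_cast; field_simp
  rw [this, Complex.im_ofReal_mul]
  have h2 : ((z : ℂ) + j).im = z.im := by simp
  rw [h2]; field_simp

/-! ### The function -/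

/-- The function `z ↦ (p E₂(p z) - E₂(z)) / 24`. -/
def h21_eisFun (p : ℕ) [NeZero p] : ℍ → ℂ :=
  fun z => ((p : ℂ) * E2 (h21_mulP p z) - E2 z) / 24

lemma h21_eisFun_apply (p : ℕ) [NeZero p] (z : ℍ) :
    h21_eisFun p z = ((p : ℂ) * E2 (h21_mulP p z) - E2 z) / 24 := rfl

/-- For `γ ∈ Γ₀(p)`: `p (γ z) = γ' (p z)` with `γ' = [a, p b; c / p, d]`. -/
lemma h21_mulP_smul (p : ℕ) [NeZero p] (γ γ' : SL(2, ℤ))
    (h00 : γ' 0 0 = γ 0 0) (h01 : γ' 0 1 = p * γ 0 1) (h10 : p * γ' 1 0 = γ 1 0)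
    (h11 : γ' 1 1 = γ 1 1) (z : ℍ) :
    h21_mulP p (γ • z) = γ' • h21_mulP p z := by
  apply UpperHalfPlane.ext
  rw [h21_coe_mulP, coe_specialLinearGroup_apply, coe_specialLinearGroup_apply, h21_coe_mulP]
  simp only [algebraMap_int_eq, eq_intCast, ofReal_intCast]
  have hp : (p : ℂ) ≠ 0 := by exact_mod_cast NeZero.ne p
  have hd : ((γ 1 0 : ℤ) : ℂ) * z + ((γ 1 1 : ℤ) : ℂ) ≠ 0 := by
    have := denom_ne_zero γ z
    rwa [ModularGroup.denom_apply] at this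
  have e10 : ((γ 1 0 : ℤ) : ℂ) = p * ((γ' 1 0 : ℤ) : ℂ) := by rw [← h10]; push_cast; rfl
  have hd' : ((γ' 1 0 : ℤ) : ℂ) * ((p : ℂ) * z) + ((γ' 1 1 : ℤ) : ℂ) ≠ 0 := by
    rw [h11]
    rw [e10] at hd
    convert hd using 1
    ring
  rw [h00, h01, h11] at *
  rw [e10] at hd ⊢
  field_simp
  push_cast
  ring

/-- The conjugate `[a, p b; c / p, d]` of `γ = [a, b; c, d]`, `c = p e`. -/
def h21_conjSL (p : ℕ) (γ : SL(2, ℤ)) (e : ℤ) (he : γ 1 0 = p * e) : SL(2, ℤ) :=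
  ⟨!![γ 0 0, p * γ 0 1; e, γ 1 1], by
    have hdet := γ.det_coe
    rw [Matrix.det_fin_two] at hdet
    rw [Matrix.det_fin_two_of]
    rw [he] at hdet
    linear_combination hdet⟩

/-- The transformation law of `E` under `Γ₀(p)`. -/
lemma h21_eisFun_smul (p : ℕ) [NeZero p] (γ : SL(2, ℤ)) (e : ℤ) (he : γ 1 0 = p * e) (z : ℍ) :
    h21_eisFun p (γ • z) = (denom γ z) ^ 2 * h21_eisFun p z := by
  have hp : (p : ℂ) ≠ 0 := by exact_mod_cast NeZero.ne p
  have hsm := h21_mulP_smul p γ (h21_conjSL p γ e he) rfl rfl (by rw [he]; rfl) rfl z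
  have hden : denom (h21_conjSL p γ e he) (h21_mulP p z) = denom γ z := by
    rw [ModularGroup.denom_apply, ModularGroup.denom_apply, h21_coe_mulP, he]
    have e10 : (h21_conjSL p γ e he) 1 0 = e := rfl
    have e11 : (h21_conjSL p γ e he) 1 1 = γ 1 1 := rfl
    rw [e10, e11]
    push_cast
    ring
  have hd : denom γ z ≠ 0 := denom_ne_zero γ z
  have hD : (p : ℂ) * D2 (h21_conjSL p γ e he) (h21_mulP p z) = D2 γ z := by
    rw [D2, D2, hden, he]
    have e10 : (h21_conjSL p γ e he) 1 0 = e := rfl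
    rw [e10]
    push_cast
    ring
  rw [h21_eisFun_apply, h21_eisFun_apply, hsm, h21_E2_smul, h21_E2_smul, hden, ← hD]
  ring

/-! ### Holomorphy -/

lemma h21_mdiff_comp_mulP (p : ℕ) [NeZero p] {f : ℍ → ℂ} (hf : MDiff f) :
    MDiff (fun z => f (h21_mulP p z)) := by
  rw [UpperHalfPlane.mdifferentiable_iff] at hf ⊢
  have hp : (0 : ℝ) < p := by exact_mod_cast Nat.pos_of_ne_zero (NeZero.ne p)
  have hmaps : Set.MapsTo (fun w : ℂ => (p : ℂ) * w) {z : ℂ | 0 < z.im} {z : ℂ | 0 < z.im} := by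
    intro w hw
    simp only [Set.mem_ofPred_eq] at hw ⊢
    simpa using mul_pos hp hw
  have hcomp : DifferentiableOn ℂ ((f ∘ ofComplex) ∘ fun w : ℂ => (p : ℂ) * w)
      {z : ℂ | 0 < z.im} :=
    hf.comp ((differentiable_id.const_mul (p : ℂ)).differentiableOn) hmaps
  refine hcomp.congr fun w hw => ?_
  simp only [Set.mem_ofPred_eq] at hw
  have hw' : 0 < ((p : ℂ) * w).im := hmaps hw
  simp only [Function.comp_apply]
  rw [ofComplex_apply_of_im_pos hw, ofComplex_apply_of_im_pos hw']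
  rfl

lemma h21_mdiff_eisFun (p : ℕ) [NeZero p] : MDiff (h21_eisFun p) := by
  have h1 : MDiff (fun z => E2 (h21_mulP p z)) := h21_mdiff_comp_mulP p E2_mdifferentiable
  have h2 : MDiff (fun z => (p : ℂ) * E2 (h21_mulP p z)) := by
    have := (mdifferentiable_const (c := (p : ℂ)) (I := 𝓘(ℂ)) (I' := 𝓘(ℂ)) (M := ℍ)).mul h1
    exact this
  have h3 : MDiff (fun z => (p : ℂ) * E2 (h21_mulP p z) - E2 z) := h2.sub E2_mdifferentiable
  have h4 := (mdifferentiable_const (c := (24 : ℂ)⁻¹) (I := 𝓘(ℂ)) (I' := 𝓘(ℂ)) (M := ℍ)).mul h3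
  have e : h21_eisFun p = (fun _ : ℍ => (24 : ℂ)⁻¹) *
      fun z => (p : ℂ) * E2 (h21_mulP p z) - E2 z := by
    funext z
    simp only [h21_eisFun_apply, Pi.mul_apply]
    ring
  rw [e]
  exact h4

/-! ### Boundedness at `i∞` -/

lemma h21_bdd_comp_mulP (p : ℕ) [NeZero p] {f : ℍ → ℂ} (hf : IsBoundedAtImInfty f) :
    IsBoundedAtImInfty (fun z => f (h21_mulP p z)) := by
  rw [isBoundedAtImInfty_iff] at hf ⊢
  obtain ⟨M, A, h⟩ := hf
  have hp : (1 : ℝ) ≤ p := by exact_mod_cast Nat.one_le_iff_ne_zero.mpr (NeZero.ne p)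
  refine ⟨M, max A 0, fun z hz => h _ ?_⟩
  rw [h21_im_mulP]
  have hz0 : 0 ≤ z.im := z.im_pos.le
  have hzA : A ≤ z.im := (le_max_left _ _).trans hz
  calc A ≤ z.im := hzA
    _ = 1 * z.im := (one_mul _).symm
    _ ≤ p * z.im := mul_le_mul_of_nonneg_right hp hz0

lemma h21_bdd_comp_divP (p : ℕ) [NeZero p] (j : ℤ) {f : ℍ → ℂ} (hf : IsBoundedAtImInfty f) :
    IsBoundedAtImInfty (fun z => f (h21_divP p j z)) := by
  rw [isBoundedAtImInfty_iff] at hf ⊢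
  obtain ⟨M, A, h⟩ := hf
  have hp : (0 : ℝ) < p := by exact_mod_cast Nat.pos_of_ne_zero (NeZero.ne p)
  refine ⟨M, p * A, fun z hz => h _ ?_⟩
  rw [h21_im_divP, le_div_iff₀ hp]
  linarith

lemma h21_bdd_D2 (γ : SL(2, ℤ)) : IsBoundedAtImInfty (D2 γ) := by
  rw [isBoundedAtImInfty_iff]
  refine ⟨2 * π, 1, fun z hz => ?_⟩
  rw [h21_D2_apply]
  by_cases hc : γ 1 0 = 0
  · rw [hc]
    simp only [Int.cast_zero, mul_zero, zero_div, norm_zero]
    positivity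
  · have hcC : ((γ 1 0 : ℤ) : ℂ) ≠ 0 := by exact_mod_cast hc
    have hd : ((γ 1 0 : ℤ) : ℂ) * z + ((γ 1 1 : ℤ) : ℂ) ≠ 0 := by
      have := denom_ne_zero γ z
      rwa [ModularGroup.denom_apply] at this
    rw [norm_div, div_le_iff₀ (norm_pos_iff.mpr hd)]
    have h1 : ‖2 * (π : ℂ) * I * ((γ 1 0 : ℤ) : ℂ)‖ = 2 * π * ‖((γ 1 0 : ℤ) : ℂ)‖ := by
      rw [norm_mul, norm_mul, norm_mul, Complex.norm_I, mul_one, Complex.norm_real,
        Real.norm_of_nonneg Real.pi_pos.le]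
      simp
    rw [h1]
    have h2 : ‖((γ 1 0 : ℤ) : ℂ)‖ ≤ ‖((γ 1 0 : ℤ) : ℂ) * z + ((γ 1 1 : ℤ) : ℂ)‖ := by
      have him : (((γ 1 0 : ℤ) : ℂ) * z + ((γ 1 1 : ℤ) : ℂ)).im = (γ 1 0 : ℤ) * z.im := by
        simp
      have h3 := Complex.abs_im_le_norm (((γ 1 0 : ℤ) : ℂ) * z + ((γ 1 1 : ℤ) : ℂ))
      rw [him, abs_mul, abs_of_pos z.im_pos] at h3
      have h4 : ‖((γ 1 0 : ℤ) : ℂ)‖ = |((γ 1 0 : ℤ) : ℝ)| := by
        rw [← Complex.ofReal_intCast, Complex.norm_real, Real.norm_eq_abs]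
      rw [h4]
      calc |((γ 1 0 : ℤ) : ℝ)| = |((γ 1 0 : ℤ) : ℝ)| * 1 := (mul_one _).symm
        _ ≤ |((γ 1 0 : ℤ) : ℝ)| * z.im := mul_le_mul_of_nonneg_left hz (abs_nonneg _)
        _ ≤ _ := h3
    exact mul_le_mul_of_nonneg_left h2 (by positivity)

/-! ### The other cusp -/

/-- `p (γ z) = γ'' ((z + j) / p)` for `γ'' = [p a, b - j a; c, (d - j c) / p]`. -/
lemma h21_mulP_smul_divP (p : ℕ) [NeZero p] (γ γ'' : SL(2, ℤ)) (j : ℤ)
    (h00 : γ'' 0 0 = p * γ 0 0) (h01 : γ'' 0 1 = γ 0 1 - j * γ 0 0) (h10 : γ'' 1 0 = γ 1 0)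
    (h11 : p * γ'' 1 1 = γ 1 1 - j * γ 1 0) (z : ℍ) :
    h21_mulP p (γ • z) = γ'' • h21_divP p j z := by
  apply UpperHalfPlane.ext
  rw [h21_coe_mulP, coe_specialLinearGroup_apply, coe_specialLinearGroup_apply, h21_coe_divP]
  simp only [algebraMap_int_eq, eq_intCast, ofReal_intCast]
  have hp : (p : ℂ) ≠ 0 := by exact_mod_cast NeZero.ne p
  have hd : ((γ 1 0 : ℤ) : ℂ) * z + ((γ 1 1 : ℤ) : ℂ) ≠ 0 := by
    have := denom_ne_zero γ z
    rwa [ModularGroup.denom_apply] at this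
  have e11 : ((γ 1 1 : ℤ) : ℂ) = p * ((γ'' 1 1 : ℤ) : ℂ) + j * ((γ 1 0 : ℤ) : ℂ) := by
    have : γ 1 1 = p * γ'' 1 1 + j * γ 1 0 := by rw [h11]; ring
    rw [this]; push_cast; ring
  have hd' : ((γ'' 1 0 : ℤ) : ℂ) * (((z : ℂ) + j) / p) + ((γ'' 1 1 : ℤ) : ℂ) ≠ 0 := by
    have := denom_ne_zero γ'' (h21_divP p j z)
    rwa [ModularGroup.denom_apply, h21_coe_divP] at this
  rw [h00, h01, h10] at *
  rw [e11] at hd ⊢
  field_simp
  push_cast
  ring

/-- The translate of `E` by `γ ∉ Γ₀(p)`. -/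
lemma h21_eisFun_smul_divP (p : ℕ) [NeZero p] (γ γ'' : SL(2, ℤ)) (j : ℤ)
    (h00 : γ'' 0 0 = p * γ 0 0) (h01 : γ'' 0 1 = γ 0 1 - j * γ 0 0) (h10 : γ'' 1 0 = γ 1 0)
    (h11 : p * γ'' 1 1 = γ 1 1 - j * γ 1 0) (z : ℍ) :
    h21_eisFun p (γ • z) = (denom γ z) ^ 2 *
      (((p : ℂ)⁻¹ * (E2 (h21_divP p j z) - h21_c0 * D2 γ'' (h21_divP p j z))
        - (E2 z - h21_c0 * D2 γ z)) / 24) := by
  have hp : (p : ℂ) ≠ 0 := by exact_mod_cast NeZero.ne p
  have hsm := h21_mulP_smul_divP p γ γ'' j h00 h01 h10 h11 z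
  have hden : (p : ℂ) * denom γ'' (h21_divP p j z) = denom γ z := by
    rw [ModularGroup.denom_apply, ModularGroup.denom_apply, h21_coe_divP, h10]
    have : γ 1 1 = p * γ'' 1 1 + j * γ 1 0 := by rw [h11]; ring
    rw [this]
    push_cast
    field_simp
    ring
  rw [h21_eisFun_apply, hsm, h21_E2_smul, h21_E2_smul, ← hden]
  field_simp

/-- Existence of the data for `γ ∉ Γ₀(p)`. -/
lemma h21_exists_divP (p : ℕ) [Fact p.Prime] (γ : SL(2, ℤ)) (hγ : ¬ (p : ℤ) ∣ γ 1 0) :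
    ∃ (j : ℤ) (γ'' : SL(2, ℤ)), γ'' 0 0 = p * γ 0 0 ∧ γ'' 0 1 = γ 0 1 - j * γ 0 0 ∧
      γ'' 1 0 = γ 1 0 ∧ p * γ'' 1 1 = γ 1 1 - j * γ 1 0 := by
  have hc : ((γ 1 0 : ℤ) : ZMod p) ≠ 0 := by
    rwa [Ne, ZMod.intCast_zmod_eq_zero_iff_dvd]
  set j : ℤ := ((((γ 1 1 : ℤ) : ZMod p) * ((γ 1 0 : ℤ) : ZMod p)⁻¹).val : ℤ) with hj
  have hdiv : (p : ℤ) ∣ γ 1 1 - j * γ 1 0 := by
    have hjc : ((j : ℤ) : ZMod p) = ((γ 1 1 : ℤ) : ZMod p) * ((γ 1 0 : ℤ) : ZMod p)⁻¹ := by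
      rw [hj, Int.cast_natCast, ZMod.natCast_zmod_val]
    rw [← ZMod.intCast_zmod_eq_zero_iff_dvd, Int.cast_sub, Int.cast_mul, hjc,
      mul_assoc, inv_mul_cancel₀ hc, mul_one, sub_self]
  obtain ⟨f, hf⟩ := hdiv
  refine ⟨j, ⟨!![p * γ 0 0, γ 0 1 - j * γ 0 0; γ 1 0, f], ?_⟩, rfl, rfl, rfl, ?_⟩
  · have hdet := γ.det_coe
    rw [Matrix.det_fin_two] at hdet
    rw [Matrix.det_fin_two_of]
    linear_combination hdet + (γ 0 0) * hf.symm
  · exact hf.symm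

/-! ### The modular form -/

lemma h21_bdd_eisFun (p : ℕ) [NeZero p] : IsBoundedAtImInfty (h21_eisFun p) := by
  have h1 : IsBoundedAtImInfty (fun z => E2 (h21_mulP p z)) :=
    h21_bdd_comp_mulP p isBoundedAtImInfty_E2
  have h2 : IsBoundedAtImInfty (fun z => (p : ℂ) * E2 (h21_mulP p z)) :=
    (Filter.const_boundedAtFilter atImInfty (p : ℂ)).mul h1
  have h3 : IsBoundedAtImInfty (fun z => (p : ℂ) * E2 (h21_mulP p z) + -E2 z) :=
    h2.add isBoundedAtImInfty_E2.neg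
  have h4 := (Filter.const_boundedAtFilter atImInfty ((24 : ℂ)⁻¹)).mul h3
  have e : h21_eisFun p = (fun _ : ℍ => (24 : ℂ)⁻¹) *
      fun z => (p : ℂ) * E2 (h21_mulP p z) + -E2 z := by
    funext z
    simp only [h21_eisFun_apply, Pi.mul_apply]
    ring
  rw [e]
  exact h4

lemma h21_slash_of_mem (p : ℕ) [NeZero p] (γ : SL(2, ℤ)) (hγ : γ ∈ Gamma0 p) :
    h21_eisFun p ∣[(2 : ℤ)] γ = h21_eisFun p := by
  have hγ' : ((γ 1 0 : ℤ) : ZMod p) = 0 := Gamma0_mem.mp hγ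
  obtain ⟨e, he⟩ := (ZMod.intCast_zmod_eq_zero_iff_dvd _ _).mp hγ'
  funext z
  have hd : denom γ z ≠ 0 := denom_ne_zero γ z
  rw [SL_slash_apply, h21_eisFun_smul p γ e he z, zpow_neg, zpow_two, ← pow_two]
  field_simp

lemma h21_bdd_slash (p : ℕ) [Fact p.Prime] (γ : SL(2, ℤ)) :
    IsBoundedAtImInfty (h21_eisFun p ∣[(2 : ℤ)] γ) := by
  by_cases hγ : (p : ℤ) ∣ γ 1 0
  · have hmem : γ ∈ Gamma0 p := by
      rw [Gamma0_mem, ZMod.intCast_zmod_eq_zero_iff_dvd]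
      exact hγ
    rw [h21_slash_of_mem p γ hmem]
    exact h21_bdd_eisFun p
  · obtain ⟨j, γ'', h00, h01, h10, h11⟩ := h21_exists_divP p γ hγ
    have hE : IsBoundedAtImInfty (fun z => E2 (h21_divP p j z)) :=
      h21_bdd_comp_divP p j isBoundedAtImInfty_E2
    have hD : IsBoundedAtImInfty (fun z => D2 γ'' (h21_divP p j z)) :=
      h21_bdd_comp_divP p j (h21_bdd_D2 γ'')
    have hc := fun c : ℂ => Filter.const_boundedAtFilter atImInfty c
    have h1 : IsBoundedAtImInfty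
        (fun z => E2 (h21_divP p j z) + -(h21_c0 * D2 γ'' (h21_divP p j z))) :=
      hE.add ((hc h21_c0).mul hD).neg
    have h2 : IsBoundedAtImInfty (fun z => E2 z + -(h21_c0 * D2 γ z)) :=
      isBoundedAtImInfty_E2.add ((hc h21_c0).mul (h21_bdd_D2 γ)).neg
    have h3 := (hc ((24 : ℂ)⁻¹)).mul (((hc ((p : ℂ)⁻¹)).mul h1).add h2.neg)
    have e : h21_eisFun p ∣[(2 : ℤ)] γ = (fun _ : ℍ => (24 : ℂ)⁻¹) *
        ((fun _ : ℍ => (p : ℂ)⁻¹) *
          (fun z => E2 (h21_divP p j z) + -(h21_c0 * D2 γ'' (h21_divP p j z))) +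
          -(fun z => E2 z + -(h21_c0 * D2 γ z))) := by
      funext z
      have hd : denom γ z ≠ 0 := denom_ne_zero γ z
      rw [SL_slash_apply, h21_eisFun_smul_divP p γ γ'' j h00 h01 h10 h11 z, zpow_neg, zpow_two,
        ← pow_two]
      simp only [Pi.mul_apply, Pi.add_apply, Pi.neg_apply]
      field_simp
      ring
    rw [e]
    exact h3

/-- **The Eisenstein series** `E = (p E₂(p z) - E₂(z)) / 24 ∈ M_2(Γ₀(p))`. -/
def h21_eisForm (p : ℕ) [Fact p.Prime] : ModularForm (Gamma0 p) 2 where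
  toFun := h21_eisFun p
  slash_action_eq' γ hγ := by
    obtain ⟨γ₀, hγ₀, rfl⟩ := hγ
    exact h21_slash_of_mem p γ₀ hγ₀
  holo' := h21_mdiff_eisFun p
  bdd_at_cusps' {c} hc := by
    have hc' : IsCusp c 𝒮ℒ := hc.mono (by
      rintro _ ⟨γ, -, rfl⟩
      exact ⟨γ, rfl⟩)
    rw [OnePoint.isBoundedAt_iff_forall_SL2Z hc']
    intro γ _
    exact h21_bdd_slash p γ

@[simp] lemma h21_coe_eisForm (p : ℕ) [Fact p.Prime] :
    (⇑(h21_eisForm p) : ℍ → ℂ) = h21_eisFun p := rfl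

/-! ### The divisor sums -/

open ArithmeticFunction in
/-- `σ₁(k) = σ*(k) + p σ₁(k / p)` (the second term only if `p ∣ k`). -/
lemma h21_sigma_eq (p : ℕ) [Fact p.Prime] (k : ℕ) (hk : 1 ≤ k) :
    σ 1 k = Asm.sigmaStar p k + (if p ∣ k then p * σ 1 (k / p) else 0) := by
  have hp : p.Prime := Fact.out
  rw [sigma_one_apply, Asm.sigmaStar,
    ← Finset.sum_filter_add_sum_filter_not k.divisors (fun d => ¬ p ∣ d)]
  congr 1
  simp only [not_not]
  split_ifs with hpk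
  · obtain ⟨k', rfl⟩ := hpk
    have hk' : k' ≠ 0 := by
      rintro rfl
      simp at hk
    rw [Nat.mul_div_cancel_left k' hp.pos, sigma_one_apply, Finset.mul_sum]
    have himg : (p * k').divisors.filter (fun d => p ∣ d) =
        k'.divisors.image (fun e => p * e) := by
      ext d
      simp only [Finset.mem_filter, Nat.mem_divisors, Finset.mem_image]
      constructor
      · rintro ⟨⟨hd, -⟩, e, rfl⟩
        exact ⟨e, ⟨(Nat.mul_dvd_mul_iff_left hp.pos).mp hd, hk'⟩, rfl⟩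
      · rintro ⟨e, ⟨he, -⟩, rfl⟩
        exact ⟨⟨Nat.mul_dvd_mul_left p he, Nat.mul_ne_zero hp.ne_zero hk'⟩, Dvd.intro _ rfl⟩
    rw [himg, Finset.sum_image]
    intro a _ b _ hab
    exact Nat.eq_of_mul_eq_mul_left hp.pos hab
  · apply Finset.sum_eq_zero
    intro d hd
    rw [Finset.mem_filter, Nat.mem_divisors] at hd
    exact absurd (hd.2.trans hd.1.1) hpk

/-! ### The `q`-expansion -/

/-- The coefficients of `E₂`. -/
def h21_e2c (m : ℕ) : ℂ := if m = 0 then 1 else -24 * (ArithmeticFunction.sigma 1 m : ℂ)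

/-- The coefficients of `E`. -/
def h21_eisc (p : ℕ) [Fact p.Prime] (k : ℕ) : ℂ :=
  if k = 0 then ((p : ℂ) - 1) / 24 else (Asm.sigmaStar p k : ℂ)

lemma h21_hasSum_E2 (z : ℍ) :
    HasSum (fun m : ℕ => h21_e2c m * cexp (2 * π * I * z) ^ m) (E2 z) := by
  have h := hasSum_qExpansion_E2 (z := z)
  simp only [smul_eq_mul] at h
  exact h

lemma h21_hasSum_E2_mulP (p : ℕ) [Fact p.Prime] (z : ℍ) :
    HasSum (fun k : ℕ => if p ∣ k then h21_e2c (k / p) * cexp (2 * π * I * z) ^ k else 0)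
      (E2 (h21_mulP p z)) := by
  have hp : p.Prime := Fact.out
  have h := h21_hasSum_E2 (h21_mulP p z)
  have hq : cexp (2 * π * I * (h21_mulP p z : ℍ)) = cexp (2 * π * I * z) ^ p := by
    rw [← Complex.exp_nat_mul, h21_coe_mulP]
    congr 1
    ring
  rw [hq] at h
  have hinj : Function.Injective (fun m : ℕ => p * m) := fun a b hab =>
    Nat.eq_of_mul_eq_mul_left hp.pos hab
  rw [← hinj.hasSum_iff]
  · convert h using 1
    funext m
    simp only [Function.comp_apply, dvd_mul_right, if_true, Nat.mul_div_cancel_left m hp.pos,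
      pow_mul]
  · intro k hk
    rw [if_neg]
    rintro ⟨m, rfl⟩
    exact hk ⟨m, rfl⟩

lemma h21_hasSum_eisFun (p : ℕ) [Fact p.Prime] (z : ℍ) :
    HasSum (fun k : ℕ => h21_eisc p k * cexp (2 * π * I * z) ^ k) (h21_eisFun p z) := by
  have hp : p.Prime := Fact.out
  have h1 := (h21_hasSum_E2_mulP p z).mul_left (p : ℂ)
  have h2 := (h1.sub (h21_hasSum_E2 z)).div_const 24
  rw [h21_eisFun_apply]
  have e : (fun k : ℕ => h21_eisc p k * cexp (2 * π * I * z) ^ k) = fun i : ℕ =>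
      (((p : ℂ) * if p ∣ i then h21_e2c (i / p) * cexp (2 * π * I * z) ^ i else 0) -
          h21_e2c i * cexp (2 * π * I * z) ^ i) / 24 := by
    funext k
    rcases Nat.eq_zero_or_pos k with rfl | hk
    · simp [h21_eisc, h21_e2c]
    · have hk0 : k ≠ 0 := hk.ne'
      have hs := h21_sigma_eq p k hk
      have hsC : ((ArithmeticFunction.sigma 1 k : ℕ) : ℂ) = (Asm.sigmaStar p k : ℂ) +
          (if p ∣ k then (p : ℂ) * (ArithmeticFunction.sigma 1 (k / p) : ℂ) else 0) := by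
        rw [hs]
        push_cast
        split_ifs <;> simp
      rw [h21_eisc, if_neg hk0]
      by_cases hpk : p ∣ k
      · have hkp : k / p ≠ 0 := by
          obtain ⟨m, rfl⟩ := hpk
          rw [Nat.mul_div_cancel_left m hp.pos]
          rintro rfl
          simp at hk
        rw [if_pos hpk] at hsC ⊢
        rw [h21_e2c, h21_e2c, if_neg hkp, if_neg hk0, hsC]
        ring
      · rw [if_neg hpk] at hsC ⊢
        rw [h21_e2c, if_neg hk0, hsC]
        ring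
  rw [e]
  exact h2

/-- The `q`-expansion of `E`. -/
theorem h21_qCoeff_eisForm (p : ℕ) [Fact p.Prime] (k : ℕ) :
    ModularFormClass.qCoeff (h21_eisForm p) k = h21_eisc p k := by
  have hf : ∀ τ : ℍ, HasSum (fun m => h21_eisc p m • Function.Periodic.qParam 1 τ ^ m)
      (h21_eisForm p τ) := by
    intro τ
    have h := h21_hasSum_eisFun p τ
    change HasSum _ (h21_eisFun p τ)
    simpa only [Function.Periodic.qParam, ofReal_one, div_one, smul_eq_mul] using h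
  exact (ModularFormClass.qExpansion_coeff_unique (h := 1) one_pos
    (CongruenceSubgroup.one_mem_strictPeriods_Gamma0 p) hf k).symm

/-- **[EIS]**: the Eisenstein series of weight 2 and level `Γ₀(p)`. -/
theorem h21_stEis (p : ℕ) [Fact p.Prime] : Asm.StEis p := by
  refine ⟨h21_eisForm p, ?_, fun k hk => ?_⟩
  · rw [h21_qCoeff_eisForm, h21_eisc, if_pos rfl]
  · rw [h21_qCoeff_eisForm, h21_eisc, if_neg (by omega)]

end

end Fermat.Agent.S16x.Eis
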