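import Mathlib
import Fermat.Agent.S16x.Asm.Defs
import Fermat.Agent.S20
import Fermat.Agent.S21.H22_FinDim

/-!
# S16, leaf `StUPsmall`: the upper bound for `p = 2, 3` (helper21)

For `p ∈ {2, 3}` the genus formula gives `0`, so `S_2(Γ₀(p)) = 0` (S20) and a congruence
`0 = a_1(f) ≡ σ*(1) = 1 mod M` forces `M = 1`.
-/

set_option autoImplicit false
set_option linter.style.haveILetI false
set_option linter.unusedSectionVars false

namespace Fermat.Agent.S16x.Eis

open ModularCurve CongruenceSubgroup

lemma h21_dedekindPsi_prime (p : ℕ) (hp : p.Prime) : dedekindPsi p = p + 1 := by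
  rw [dedekindPsi, Nat.Prime.divisors hp, Finset.filter_true_of_mem]
  · rw [Finset.sum_pair hp.one_lt.ne]
    simp [Nat.div_self hp.pos]
  · intro d hd
    simp only [Finset.mem_insert, Finset.mem_singleton] at hd
    rcases hd with rfl | rfl
    · exact squarefree_one
    · exact hp.squarefree

lemma h21_cuspCount_prime (p : ℕ) (hp : p.Prime) : cuspCount p = 2 := by
  rw [cuspCount, Nat.Prime.divisors hp, Finset.sum_pair hp.one_lt.ne]
  simp [Nat.div_self hp.pos]

lemma h21_genusFormula_two : genusFormula 2 = 0 := by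
  have h1 : nuTwo 2 = 1 := by
    rw [nuTwo, Nat.card_eq_fintype_card]; decide
  have h2 : nuThree 2 = 0 := by
    rw [nuThree, Nat.card_eq_fintype_card]; decide
  rw [genusFormula, h21_dedekindPsi_prime 2 Nat.prime_two, h21_cuspCount_prime 2 Nat.prime_two,
    h1, h2]
  norm_num

lemma h21_genusFormula_three : genusFormula 3 = 0 := by
  have h1 : nuTwo 3 = 0 := by
    rw [nuTwo, Nat.card_eq_fintype_card]; decide
  have h2 : nuThree 3 = 1 := by
    rw [nuThree, Nat.card_eq_fintype_card]; decide
  rw [genusFormula, h21_dedekindPsi_prime 3 Nat.prime_three,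
    h21_cuspCount_prime 3 Nat.prime_three, h1, h2]
  norm_num

/-- For `p = 2, 3` there are no nonzero cusp forms of weight `2` on `Γ₀(p)`. -/
theorem h21_cuspForm_eq_zero (p : ℕ) [NeZero p] (hg : genusFormula p = 0)
    (f : CuspForm (Gamma0 p) 2) : f = 0 := by
  have h := Fermat.Agent.S20.result p
  rw [hg] at h
  have h0 : Module.finrank ℂ (CuspForm (Gamma0 p) 2) = 0 := by exact_mod_cast h
  haveI : FiniteDimensional ℂ (CuspForm (Gamma0 p) 2) :=
    Fermat.Agent.S21.finiteDimensional_cuspForm p
  haveI : Subsingleton (CuspForm (Gamma0 p) 2) := Module.finrank_zero_iff.mp h0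
  exact Subsingleton.elim _ _

/-- The upper bound when `S_2(Γ₀(p)) = 0`. -/
theorem h21_stUP_of_genus_zero (p : ℕ) [Fact p.Prime] (hg : genusFormula p = 0) :
    Asm.StUP p := by
  intro M hM hcong
  obtain ⟨f, -, hf⟩ := hcong
  have hf0 : f = 0 := h21_cuspForm_eq_zero p hg f
  obtain ⟨c, hc⟩ := hf 1 le_rfl
  have h1 : ModularFormClass.qCoeff (f : UpperHalfPlane → ℂ) 1 = 0 := by
    rw [hf0, ModularFormClass.qCoeff]
    have : ((0 : CuspForm (Gamma0 p) 2) : UpperHalfPlane → ℂ) = 0 := rfl
    rw [this, UpperHalfPlane.qExpansion_zero]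
    simp
  have hs : Asm.sigmaStar p 1 = 1 := by
    have hp : 1 < p := (Fact.out : p.Prime).one_lt
    rw [Asm.sigmaStar, Nat.divisors_one, Finset.filter_singleton, if_pos, Finset.sum_singleton]
    intro h
    exact absurd (Nat.le_of_dvd one_pos h) (by omega)
  rw [h1, hs] at hc
  have hc' : (1 : ℤ) + (M : ℤ) * c = 0 := by
    have : ((1 + (M : ℤ) * c : ℤ) : ℂ) = 0 := by
      push_cast
      rw [hc]
      push_cast
      ring
    exact_mod_cast this
  have hM1 : (M : ℤ) ∣ 1 := ⟨-c, by linarith⟩
  have : M = 1 := by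
    have := Int.natCast_dvd_natCast.mp (show ((M : ℕ) : ℤ) ∣ ((1 : ℕ) : ℤ) by simpa using hM1)
    exact Nat.dvd_one.mp this
  rw [this]
  exact one_dvd _

/-- **`StUPsmall`**: the upper bound for `p = 2, 3`. -/
theorem h21_stUPsmall (p : ℕ) [Fact p.Prime] : Asm.StUPsmall p := by
  intro hp5
  have hp : p.Prime := Fact.out
  have h23 : p = 2 ∨ p = 3 := by
    have h2 := hp.two_le
    interval_cases p
    · exact Or.inl rfl
    · exact Or.inr rfl
    · exact absurd hp (by decide)
  rcases h23 with rfl | rfl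
  · exact h21_stUP_of_genus_zero 2 h21_genusFormula_two
  · exact h21_stUP_of_genus_zero 3 h21_genusFormula_three

end Fermat.Agent.S16x.Eis
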