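import Fermat.Agent.S16x.Asm.Defs
import Fermat.Agent.S16x.Red.H7_SigmaAsm
import Fermat.Prelude.Thm_CongruenceSubgroup_one_mem_strictPeriods_Gamma0

/-!
# S16 / [EIS]: the `q`-expansion half of `StEis`

If `E ∈ M_2(Γ₀(p))` is pointwise `(p E₂(pz) - E₂(z)) / 24`, then its `q`-expansion is
`(p - 1) / 24 + ∑_{k ≥ 1} σ*(k) q^k`.  (How `E` is built is irrelevant here.)
-/

set_option autoImplicit false

open ModularCurve CuspForm ModularFormClass CongruenceSubgroup UpperHalfPlane EisensteinSeries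

noncomputable section

namespace Fermat.Agent.S16x.Eis.H16

local notation "𝕢" => Function.Periodic.qParam

/-- The coefficients of `E₂`. -/
def e2c (m : ℕ) : ℂ := if m = 0 then 1 else -24 * (ArithmeticFunction.sigma 1 m : ℂ)

/-- The coefficients of `E₂(pz)`. -/
def e2cp (p : ℕ) (n : ℕ) : ℂ := if p ∣ n then e2c (n / p) else 0

/-- The coefficients of `(p E₂(pz) - E₂(z)) / 24`. -/
def eisc (p : ℕ) (n : ℕ) : ℂ := ((p : ℂ) * e2cp p n - e2c n) / 24

theorem hasSum_E2 (z : ℍ) : HasSum (fun m : ℕ => e2c m • 𝕢 1 (z : ℂ) ^ m) (E2 z) := by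
  have h := hasSum_qExpansion_E2 (z := z)
  simpa only [e2c, Function.Periodic.qParam, Complex.ofReal_one, div_one] using h

theorem qParam_scale (p : ℕ) (z w : ℂ) (hw : w = (p : ℂ) * z) :
    𝕢 1 w = 𝕢 1 z ^ p := by
  simp only [Function.Periodic.qParam, Complex.ofReal_one, div_one]
  rw [← Complex.exp_nat_mul, hw]
  congr 1
  ring

theorem hasSum_E2_scale (p : ℕ) (hp : 0 < p) (z w : ℍ) (hw : (w : ℂ) = (p : ℂ) * (z : ℂ)) :
    HasSum (fun n : ℕ => e2cp p n • 𝕢 1 (z : ℂ) ^ n) (E2 w) := by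
  have h := hasSum_E2 w
  rw [qParam_scale p (z : ℂ) (w : ℂ) hw] at h
  have hinj : Function.Injective (fun m : ℕ => p * m) := fun a b hab =>
    Nat.eq_of_mul_eq_mul_left hp hab
  have hzero : ∀ x ∉ Set.range (fun m : ℕ => p * m),
      (fun n : ℕ => e2cp p n • 𝕢 1 (z : ℂ) ^ n) x = 0 := by
    intro x hx
    have hnd : ¬ p ∣ x := by
      rintro ⟨m, rfl⟩
      exact hx ⟨m, rfl⟩
    simp [e2cp, hnd]
  rw [← Function.Injective.hasSum_iff hinj hzero]
  convert h using 1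
  funext m
  simp only [Function.comp_apply, e2cp, if_pos (Dvd.intro m rfl), Nat.mul_div_cancel_left m hp,
    pow_mul]

variable (p : ℕ) [Fact p.Prime]

omit [Fact p.Prime] in
theorem eisc_zero : eisc p 0 = ((p : ℂ) - 1) / 24 := by
  simp [eisc, e2cp, e2c]

theorem eisc_pos (k : ℕ) (hk : 1 ≤ k) : eisc p k = (Asm.sigmaStar p k : ℂ) := by
  have hk0 : k ≠ 0 := by omega
  have hsig := Red.H7.h7_sigma_one_eq p k (by omega)
  have hsigC : (ArithmeticFunction.sigma 1 k : ℂ) =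
      (Asm.sigmaStar p k : ℂ) +
        (p : ℂ) * (if p ∣ k then (ArithmeticFunction.sigma 1 (k / p) : ℂ) else 0) := by
    have := congrArg (Nat.cast : ℕ → ℂ) hsig
    push_cast at this
    exact this
  unfold eisc e2cp e2c
  rw [if_neg hk0, hsigC]
  by_cases hpk : p ∣ k
  · have hkp : k / p ≠ 0 := by
      obtain ⟨m, rfl⟩ := hpk
      have hp0 : 0 < p := (Fact.out : p.Prime).pos
      rw [Nat.mul_div_cancel_left m hp0]
      rintro rfl
      simp at hk0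
    rw [if_pos hpk, if_pos hpk, if_neg hkp]
    ring
  · rw [if_neg hpk, if_neg hpk]
    ring

theorem hasSum_eis (z w : ℍ) (hw : (w : ℂ) = (p : ℂ) * (z : ℂ)) :
    HasSum (fun n : ℕ => eisc p n • 𝕢 1 (z : ℂ) ^ n)
      (((p : ℂ) * E2 w - E2 z) / 24) := by
  have h1 := hasSum_E2 z
  have h2 := hasSum_E2_scale p (Fact.out : p.Prime).pos z w hw
  have h3 := ((h2.mul_left (p : ℂ)).sub h1).div_const 24
  have hfun : (fun n : ℕ => eisc p n • 𝕢 1 (z : ℂ) ^ n) =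
      (fun i : ℕ => ((p : ℂ) * e2cp p i • 𝕢 1 (z : ℂ) ^ i - e2c i • 𝕢 1 (z : ℂ) ^ i) / 24) := by
    funext n
    simp only [eisc, smul_eq_mul]
    ring
  rw [hfun]
  exact h3

/-- **[EIS], `q`-expansion half.** -/
theorem h16_stEis_of (E : ModularForm (Gamma0 p) 2)
    (hE : ∀ z w : ℍ, (w : ℂ) = (p : ℂ) * (z : ℂ) →
      E z = ((p : ℂ) * E2 w - E2 z) / 24) :
    ModularFormClass.qCoeff E 0 = ((p : ℂ) - 1) / 24 ∧
      ∀ k : ℕ, 1 ≤ k → ModularFormClass.qCoeff E k = (Asm.sigmaStar p k : ℂ) := by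
  have hp0 : 0 < p := (Fact.out : p.Prime).pos
  have hsum : ∀ τ : ℍ, HasSum (fun m : ℕ => eisc p m • 𝕢 1 (τ : ℂ) ^ m) (E τ) := by
    intro τ
    have hpos : 0 < ((p : ℂ) * (τ : ℂ)).im := by
      have : ((p : ℂ) * (τ : ℂ)).im = (p : ℝ) * (τ : ℂ).im := by
        simp
      rw [this]
      exact mul_pos (by exact_mod_cast hp0) τ.im_pos
    have hw : ((⟨(p : ℂ) * (τ : ℂ), hpos⟩ : ℍ) : ℂ) = (p : ℂ) * (τ : ℂ) := rfl
    rw [hE τ ⟨(p : ℂ) * (τ : ℂ), hpos⟩ hw]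
    exact hasSum_eis p τ _ hw
  have hone : (1 : ℝ) ∈
      (Subgroup.map (Matrix.SpecialLinearGroup.mapGL ℝ) (Gamma0 p)).strictPeriods :=
    CongruenceSubgroup.one_mem_strictPeriods_Gamma0 p
  have huniq : ∀ m : ℕ, eisc p m = ModularFormClass.qCoeff E m := fun m =>
    ModularFormClass.qExpansion_coeff_unique one_pos hone hsum m
  refine ⟨?_, ?_⟩
  · rw [← huniq 0, eisc_zero]
  · intro k hk
    rw [← huniq k, eisc_pos p k hk]

/-- **[EIS]** from the existence of `E` with the pointwise formula. -/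
theorem h16_stEis_of' (h : ∃ E : ModularForm (Gamma0 p) 2,
    ∀ z w : ℍ, (w : ℂ) = (p : ℂ) * (z : ℂ) → E z = ((p : ℂ) * E2 w - E2 z) / 24) :
    Asm.StEis p := by
  obtain ⟨E, hE⟩ := h
  exact ⟨E, h16_stEis_of p E hE⟩

end Fermat.Agent.S16x.Eis.H16
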